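import Fermat.Agent.S56.Tw.Core
import Fermat.Agent.S56.TW.Frozen
import Fermat.Agent.S56.Top.Spec
import Fermat.Agent.S56.Top.H0
import Fermat.Agent.S56.Ec.Main

/-!
# S56 / T5 (Taylor-Wiles primes), file 6: the assembly `s56_exists_tw_primes`

From `s56tw_core` (killing induction + Chebotarev step, helper20), `twg_frozen` (the group theoretic
core, helper7 + TWG crew) and the finiteness of `H¹(G_Smin, M*)` (`ecg_global_euler_char`).
-/

set_option autoImplicit false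
set_option linter.unusedSectionVars false
set_option linter.unusedVariables false
set_option linter.style.haveILetI false

noncomputable section

namespace Fermat.Agent.S56

open Fermat.Agent.S55 ExtCitation IsLocalRing Polynomial

local notation "Qb" => AlgebraicClosure ℚ

local instance s56twm_isAlgebraic : Algebra.IsAlgebraic ℚ (AlgebraicClosure ℚ) :=
  AlgebraicClosure.isAlgebraic ℚ
local instance s56twm_isAlgClosure : IsAlgClosure ℚ (AlgebraicClosure ℚ) :=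
  ⟨inferInstance, inferInstance⟩
local instance s56twm_normal : Normal ℚ (AlgebraicClosure ℚ) :=
  IsAlgClosure.normal ℚ (AlgebraicClosure ℚ)

/-- the subgroup of `G_ℚ` fixing the `m`-th roots of unity -/
def s56twmFix (m : ℕ) : Subgroup GQ where
  carrier := {g | ∀ ζ : Qb, ζ ^ m = 1 → g ζ = ζ}
  mul_mem' := by
    intro g h hg hh ζ hζ
    rw [AlgEquiv.mul_apply, hh ζ hζ, hg ζ hζ]
  one_mem' := fun ζ _ => rfl
  inv_mem' := by
    intro g hg ζ hζ
    have h1 := hg ζ hζ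
    calc g⁻¹ ζ = g⁻¹ (g ζ) := by rw [h1]
      _ = ζ := by rw [← AlgEquiv.mul_apply, inv_mul_cancel, AlgEquiv.one_apply]

theorem mem_s56twmFix (m : ℕ) (g : GQ) :
    g ∈ s56twmFix m ↔ ∀ ζ : Qb, ζ ^ m = 1 → g ζ = ζ := Iff.rfl

/-- `G_ℚ` acts on the `m`-th roots of unity through an abelian quotient -/
theorem s56twm_commutator_mem (m : ℕ) (hm : m ≠ 0) (g h : GQ) :
    g * h * g⁻¹ * h⁻¹ ∈ s56twmFix m := by
  haveI : NeZero m := ⟨hm⟩
  obtain ⟨ζ₀, hζ₀⟩ := s56tw_exists_primitiveRoot m hm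
  -- the commutator is in the kernel of `autToPow`
  have hker : hζ₀.autToPow ℚ (g * h * g⁻¹ * h⁻¹) = 1 := by
    rw [map_mul, map_mul, map_mul, map_inv, map_inv]
    rw [mul_comm (hζ₀.autToPow ℚ g) (hζ₀.autToPow ℚ h), mul_inv_cancel_right, mul_inv_cancel]
  have hfix : (g * h * g⁻¹ * h⁻¹) ζ₀ = ζ₀ := by
    have h1 := hζ₀.autToPow_spec ℚ (g * h * g⁻¹ * h⁻¹)
    rw [hker, Units.val_one, ZMod.val_one_eq_one_mod] at h1
    rw [← h1]
    conv_rhs => rw [← pow_one ζ₀, ← Nat.mod_add_div 1 m, pow_add, pow_mul, hζ₀.pow_eq_one,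
      one_pow, mul_one]
  intro ζ hζ
  obtain ⟨i, -, rfl⟩ := hζ₀.eq_pow_of_pow_eq_one hζ
  rw [map_pow, hfix]

variable {𝒪 : Type} [CommRing 𝒪] [IsDomain 𝒪] [IsDiscreteValuationRing 𝒪]
  [IsAdicComplete (maximalIdeal 𝒪) 𝒪] [Finite (ResidueField 𝒪)]
  (p : ℕ) [Fact p.Prime] [CharP (ResidueField 𝒪) p]
  (ρbar : ResidualGaloisRep (ResidueField 𝒪))

/-- elements fixing `μ_{p^(n+1)}` are killed by the mod `p` cyclotomic character -/
theorem s56twm_cycloChar_eq_one (n : ℕ) (g : GQ) (hg : g ∈ s56twmFix (p ^ (n + 1))) :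
    cycloChar p g = 1 := by
  have hp : p.Prime := Fact.out
  obtain ⟨ζ, hζ⟩ := s56tw_exists_primitiveRoot (p ^ (n + 1)) (pow_ne_zero _ hp.ne_zero)
  have hζ1 : IsPrimitiveRoot (ζ ^ (p ^ n)) p :=
    IsPrimitiveRoot.pow (pow_pos hp.pos _) hζ (pow_succ p n)
  have hfix : g (ζ ^ (p ^ n)) = ζ ^ (p ^ n) := by rw [map_pow, hg ζ hζ.pow_eq_one]
  have h1 := Fermat.Agent.S14.plumb_cycloExp_eq_one_of_fix p g hζ1 hfix
  apply Units.ext
  rw [coe_cycloChar, h1, Units.val_one]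

/-- `M* = ad⁰ρ̄(1)` is trivial on `ker ρ̄ ∩ ker χ_p` -/
theorem s56twm_act_eq_one (g : GQ) (hρ : ρbar.ρ g = 1) (hχ : cycloChar p g = 1) :
    ((s56Ad0Rep p ρbar).dualTwist (cycloChar p)).ρ g = 1 := by
  have hρi : ρbar.ρ g⁻¹ = 1 := by
    have h1 := map_mul ρbar.ρ g⁻¹ g
    rw [inv_mul_cancel, map_one, hρ, mul_one] at h1
    exact h1.symm
  have hA : (s56Ad0Rep p ρbar).ρ g⁻¹ = 1 := by
    apply LinearMap.ext
    intro f
    apply S56Ad0.ext
    show (s56Ad0 p ρbar g⁻¹ f).val = f.val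
    rw [s56Ad0_apply, inv_inv, hρ, hρi, one_mul, mul_one]
  apply LinearMap.ext
  intro f
  rw [Rep.dualTwist_ρ_apply, hχ, hA, Units.val_one, one_smul]
  rfl

/-- **leaf T5.** Taylor-Wiles primes killing the WHOLE `H¹(G_Smin, ad⁰ρ̄(1))` (cocycle form). -/
theorem s56_exists_tw_primes (hp2 : p ≠ 2) (habs : ρbar.IsAbsolutelyIrreducible)
    (hdet : (GaloisRepAdic.ofResidualGaloisRep ρbar).DetIsCyclotomic p)
    (hsplit : ∀ σ : AlgebraicClosure ℚ ≃ₐ[ℚ] AlgebraicClosure ℚ,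
      ∃ α β : ResidueField 𝒪, LinearMap.charpoly (ρbar.ρ σ) = (X - C α) * (X - C β))
    (hTW : ∀ (K : Type) [Field K] [Algebra (ResidueField 𝒪) K]
      (G : Subgroup (AlgebraicClosure ℚ ≃ₐ[ℚ] AlgebraicClosure ℚ)), G.index = 2 →
      ∀ V : Submodule K (ρbar.baseChange K).V,
        (∀ σ ∈ G, ∀ x ∈ V, (ρbar.baseChange K).ρ σ x ∈ V) → V = ⊥ ∨ V = ⊤)
    (S Smin : Finset ℕ) (hpSmin : p ∈ Smin) (hSmin : Smin ⊆ S) (hS : ∀ q ∈ S, q.Prime)
    (hmin : ∀ q : ℕ, q.Prime → q ≠ p → (q ∈ Smin ↔ ¬ ρbar.IsUnramifiedAt q)) :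
    ∃ r : ℕ, ∀ n : ℕ, ∃ qv : Fin r → Nat.Primes, Function.Injective qv ∧
      (∀ i, S56IsTW p ρbar S n ((qv i : Nat.Primes) : ℕ)) ∧
      ∀ y : GQ → ((s56Ad0Rep p ρbar).dualTwist (cycloChar p)),
        y ∈ smZ1 (levelsS (s56Primes Smin)) ((s56Ad0Rep p ρbar).dualTwist (cycloChar p)).ρ →
        (∀ i, ∃ m : ((s56Ad0Rep p ρbar).dualTwist (cycloChar p)),
          ∀ γ : primeLocalGaloisGroup (qv i),
            y (primeLocalToGlobal (qv i) γ) =
              ((s56Ad0Rep p ρbar).dualTwist (cycloChar p)).ρ (primeLocalToGlobal (qv i) γ) m - m) →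
        y ∈ smB1 ((s56Ad0Rep p ρbar).dualTwist (cycloChar p)).ρ := by
  classical
  have hp : p.Prime := Fact.out
  have hpS₁ : pPrime p ∈ s56Primes Smin := by
    rw [mem_s56Primes]
    exact hpSmin
  have hur : ∀ q : Nat.Primes, q ∉ s56Primes Smin → ρbar.IsUnramifiedAt (q : ℕ) := by
    intro q hq
    rw [mem_s56Primes] at hq
    have hqp : (q : ℕ) ≠ p := fun h => hq (h ▸ hpSmin)
    by_contra hcon
    exact hq ((hmin q q.2 hqp).2 hcon)
  have hM₁ : IsSmoothRep (levelsS (s56Primes Smin)) (s56Ad0Rep p ρbar).ρ :=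
    s56_ad_isSmooth p ρbar (s56Primes Smin) hur
  have hP := perfPair_frozen (s56Primes Smin) hpS₁ (s56Ad0Rep p ρbar) hM₁
  have hMd₁ : IsSmoothRep (levelsS (s56Primes Smin))
      ((s56Ad0Rep p ρbar).dualTwist (cycloChar p)).ρ := hP.pd.smW
  haveI hfinMd : FiniteDimensional (ZMod p) ((s56Ad0Rep p ρbar).dualTwist (cycloChar p)) :=
    hP.finW
  obtain ⟨hf1, -, -⟩ := ecg_global_euler_char hp2 (s56Primes Smin) hpS₁
    ((s56Ad0Rep p ρbar).dualTwist (cycloChar p)) hMd₁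
  haveI := hf1
  refine ⟨Module.finrank (ZMod p) (smH1 (levelsS (s56Primes Smin))
    ((s56Ad0Rep p ρbar).dualTwist (cycloChar p)).ρ), fun n => ?_⟩
  have hgt : ∀ y : GQ → ((s56Ad0Rep p ρbar).dualTwist (cycloChar p)),
      y ∈ smZ1 (levelsS (s56Primes Smin)) ((s56Ad0Rep p ρbar).dualTwist (cycloChar p)).ρ →
      y ∉ smB1 ((s56Ad0Rep p ρbar).dualTwist (cycloChar p)).ρ →
      ∃ σ : GQ, (∀ ζ : Qb, ζ ^ (p ^ (n + 1)) = 1 → σ ζ = ζ) ∧
        ∃ α β : ResidueField 𝒪, α ≠ β ∧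
          LinearMap.charpoly (ρbar.ρ σ) = (X - C α) * (X - C β) ∧
          ¬ S56twC ((s56Ad0Rep p ρbar).dualTwist (cycloChar p)).ρ y σ := by
    intro y hy hyB
    have hy1 : dd1 ((s56Ad0Rep p ρbar).dualTwist (cycloChar p)).ρ y = 0 :=
      ((mem_smZ1 _ _ _).1 hy).1
    have hncob : ¬ ∃ m : ((s56Ad0Rep p ρbar).dualTwist (cycloChar p)),
        ∀ g, y g = ((s56Ad0Rep p ρbar).dualTwist (cycloChar p)).ρ g m - m := by
      rintro ⟨m, hm⟩
      apply hyB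
      refine ⟨m, ?_⟩
      funext g
      exact (hm g).symm
    obtain ⟨σ, hσ, ⟨α, β, hαβ, hch⟩, hne⟩ := twg_frozen p ρbar hp2 habs hdet hsplit hTW
      (s56twmFix (p ^ (n + 1)))
      (s56twm_commutator_mem (p ^ (n + 1)) (pow_ne_zero _ hp.ne_zero))
      (fun g hg => s56twm_cycloChar_eq_one p n g hg) y
      (fun g h => s56tw_coc_mul hy1 g h) hncob
    refine ⟨σ, hσ, α, β, hαβ, hch, ?_⟩
    rintro ⟨m, hm⟩
    exact hne m hm
  obtain ⟨qv, hinj, hTWq, hkill⟩ := s56tw_core p ρbar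
    ((s56Ad0Rep p ρbar).dualTwist (cycloChar p)).ρ
    (fun g hρ hχ => s56twm_act_eq_one p ρbar g hρ hχ) (s56Primes Smin) S (hSmin hpSmin) n hgt
  exact ⟨qv, hinj, hTWq, hkill⟩

end Fermat.Agent.S56
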