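import Fermat.Agent.S55.Top.Cochains

/-!
# S56 / T5 (Taylor-Wiles primes), file 2: the condition "`y g` is a coboundary value"

For a `1`-cocycle `y : G → N` (`dd1 act y = 0`) put `S56twC act y g := ∃ m, y g = act g m - m`.
It is stable under conjugation (`s56twC_conj`), powers (`s56twC_pow`) and multiplication by
elements of a subgroup on whose cosets `y` is constant and which acts trivially (`s56twC_mul_right`).
-/

set_option autoImplicit false

namespace Fermat.Agent.S56

open Fermat.Agent.S55

section Coc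

variable {R : Type*} [CommRing R] {G : Type*} [Group G] {N : Type*} [AddCommGroup N] [Module R N]
  (act : Representation R G N) (y : G → N)

/-- `y g` is the value at `g` of a coboundary -/
def S56twC (g : G) : Prop := ∃ m : N, y g = act g m - m

variable {act y}

theorem s56tw_coc_mul (hy : dd1 act y = 0) (g h : G) : y (g * h) = y g + act g (y h) := by
  have h1 := congrFun hy (g, h)
  rw [dd1_apply, Pi.zero_apply] at h1
  have h2 : act g (y h) + y g - y (g * h) = 0 := by
    rw [← h1]
    abel
  rw [sub_eq_zero] at h2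
  rw [← h2, add_comm]

theorem s56tw_coc_one (hy : dd1 act y = 0) : y 1 = 0 := by
  have h1 := s56tw_coc_mul hy 1 1
  rw [mul_one, map_one, Module.End.one_apply] at h1
  exact left_eq_add.mp h1

theorem s56tw_coc_inv (hy : dd1 act y = 0) (g : G) : y g⁻¹ = - act g⁻¹ (y g) := by
  have h1 := s56tw_coc_mul hy g⁻¹ g
  rw [inv_mul_cancel, s56tw_coc_one hy] at h1
  exact eq_neg_of_add_eq_zero_left h1.symm

theorem s56twC_conj (hy : dd1 act y = 0) (τ g : G) (h : S56twC act y g) :
    S56twC act y (τ * g * τ⁻¹) := by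
  obtain ⟨m, hm⟩ := h
  refine ⟨act τ m - y τ, ?_⟩
  rw [s56tw_coc_mul hy, s56tw_coc_mul hy, s56tw_coc_inv hy, hm]
  simp only [map_sub, map_neg]
  have e1 : act (τ * g) (act τ⁻¹ (y τ)) = act (τ * g * τ⁻¹) (y τ) := by
    rw [← Module.End.mul_apply, ← map_mul]
  have e2 : act τ (act g m) = act (τ * g * τ⁻¹) (act τ m) := by
    rw [← Module.End.mul_apply, ← Module.End.mul_apply, ← map_mul, ← map_mul,
      inv_mul_cancel_right]
  rw [e1, e2]
  abel

theorem s56twC_pow (hy : dd1 act y = 0) (g : G) (h : S56twC act y g) (b : ℕ) :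
    S56twC act y (g ^ b) := by
  obtain ⟨m, hm⟩ := h
  refine ⟨m, ?_⟩
  induction b with
  | zero => rw [pow_zero, s56tw_coc_one hy, map_one, Module.End.one_apply, sub_self]
  | succ b ih =>
    rw [pow_succ, s56tw_coc_mul hy, ih, hm, map_sub, ← Module.End.mul_apply, ← map_mul]
    abel

theorem s56twC_mul_right (g u : G) (hu : y (g * u) = y g) (hact : act u = 1)
    (h : S56twC act y g) : S56twC act y (g * u) := by
  obtain ⟨m, hm⟩ := h
  refine ⟨m, ?_⟩
  rw [hu, hm, map_mul, hact, mul_one]

end Coc

end Fermat.Agent.S56
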