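import Fermat.Agent.S56.Tw.Step
import Fermat.Agent.S56.Frob.Kill

/-!
# S56 / T5 (Taylor-Wiles primes), file 5: the killing induction

`s56tw_core` : if `H¹(G_{S'}, N)` is finite-dimensional over `𝔽_p` and every smooth cocycle which
is not a coboundary admits a "good" element `σ` (fixing `μ_{p^(n+1)}`, distinct eigenvalues under
`ρ̄`, `y σ ∉ (σ - 1) N`), then there are `r = dim H¹` distinct Taylor-Wiles primes of level `n`
such that every smooth cocycle which is locally a coboundary at each of them is a coboundary.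
-/

set_option autoImplicit false
set_option linter.unusedSectionVars false
set_option linter.unusedVariables false

noncomputable section

namespace Fermat.Agent.S56

open Fermat.Agent.S55 ExtCitation Polynomial

local notation "Qb" => AlgebraicClosure ℚ

section LocZ

variable {R : Type*} [CommRing R] {N : Type*} [AddCommGroup N] [Module R N]
  (act : Representation R GQ N)

/-- functions on `G_ℚ` whose restriction to the local Galois group at `q` is a coboundary -/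
def s56twLocZ (q : Nat.Primes) : Submodule R (GQ → N) where
  carrier := {y | ∃ m : N, ∀ γ : primeLocalGaloisGroup q,
    y (primeLocalToGlobal q γ) = act (primeLocalToGlobal q γ) m - m}
  add_mem' := by
    rintro y y' ⟨m, hm⟩ ⟨m', hm'⟩
    refine ⟨m + m', fun γ => ?_⟩
    rw [Pi.add_apply, hm γ, hm' γ, map_add]
    abel
  zero_mem' := ⟨0, fun γ => by rw [Pi.zero_apply, map_zero, sub_zero]⟩
  smul_mem' := by
    rintro c y ⟨m, hm⟩
    refine ⟨c • m, fun γ => ?_⟩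
    rw [Pi.smul_apply, hm γ, map_smul, smul_sub]

theorem mem_s56twLocZ (q : Nat.Primes) (y : GQ → N) :
    y ∈ s56twLocZ act q ↔ ∃ m : N, ∀ γ : primeLocalGaloisGroup q,
      y (primeLocalToGlobal q γ) = act (primeLocalToGlobal q γ) m - m := Iff.rfl

theorem s56tw_smB1_le_locZ (q : Nat.Primes) : smB1 act ≤ s56twLocZ act q := by
  rintro y ⟨m, rfl⟩
  exact ⟨m, fun γ => rfl⟩

variable (𝓛 : Levels GQ)

/-- the classes in `H¹` which are locally trivial at `q` -/
def s56twLocH (q : Nat.Primes) : Submodule R (smH1 𝓛 act) :=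
  ((s56twLocZ act q).comap (smZ1 𝓛 act).subtype).map (smH1π 𝓛 act)

theorem s56tw_mk_mem_locH_iff (q : Nat.Primes) (y : ↥(smZ1 𝓛 act)) :
    smH1π 𝓛 act y ∈ s56twLocH act 𝓛 q ↔ (y : GQ → N) ∈ s56twLocZ act q := by
  constructor
  · rintro ⟨y', hy', h⟩
    have h1 : smH1π 𝓛 act (y - y') = 0 := by rw [map_sub, h, sub_self]
    rw [smH1π_eq_zero_iff] at h1
    have h2 : ((y - y' : ↥(smZ1 𝓛 act)) : GQ → N) ∈ s56twLocZ act q :=
      s56tw_smB1_le_locZ act q h1
    have h3 : (y : GQ → N) = ((y - y' : ↥(smZ1 𝓛 act)) : GQ → N) + (y' : GQ → N) := by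
      simp
    rw [h3]
    exact (s56twLocZ act q).add_mem h2 hy'
  · intro h
    exact ⟨y, h, rfl⟩

end LocZ

theorem s56tw_core {k : Type} [Field k] (p : ℕ) [Fact p.Prime] (ρbar : ResidualGaloisRep k)
    {N : Type*} [AddCommGroup N] [Module (ZMod p) N] (act : Representation (ZMod p) GQ N)
    (hact : ∀ g : GQ, ρbar.ρ g = 1 → cycloChar p g = 1 → act g = 1)
    (S' : Finset Nat.Primes) [hfin : FiniteDimensional (ZMod p) (smH1 (levelsS S') act)]
    (S : Finset ℕ) (hpS : p ∈ S) (n : ℕ)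
    (hgt : ∀ y : GQ → N, y ∈ smZ1 (levelsS S') act → y ∉ smB1 act →
      ∃ σ : GQ, (∀ ζ : Qb, ζ ^ (p ^ (n + 1)) = 1 → σ ζ = ζ) ∧
        ∃ α β : k, α ≠ β ∧ LinearMap.charpoly (ρbar.ρ σ) = (X - C α) * (X - C β) ∧
          ¬ S56twC act y σ) :
    ∃ qv : Fin (Module.finrank (ZMod p) (smH1 (levelsS S') act)) → Nat.Primes,
      Function.Injective qv ∧
      (∀ i, (((qv i : Nat.Primes) : ℕ).Prime ∧ ((qv i : Nat.Primes) : ℕ) ∉ S ∧
          p ^ (n + 1) ∣ ((qv i : Nat.Primes) : ℕ) - 1) ∧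
        ∀ P : ValuationSubring Qb, P.LiesOverPrime ((qv i : Nat.Primes) : ℕ) →
          ∀ φ : GQ, P.IsFrobeniusAt φ ((qv i : Nat.Primes) : ℕ) →
            ∃ α β : k, α ≠ β ∧ LinearMap.charpoly (ρbar.ρ φ) = (X - C α) * (X - C β)) ∧
      ∀ y : GQ → N, y ∈ smZ1 (levelsS S') act →
        (∀ i, ∃ m : N, ∀ γ : primeLocalGaloisGroup (qv i),
          y (primeLocalToGlobal (qv i) γ) = act (primeLocalToGlobal (qv i) γ) m - m) →
        y ∈ smB1 act := by
  classical
  set TWP : ℕ → Prop := fun q => (q.Prime ∧ q ∉ S ∧ p ^ (n + 1) ∣ q - 1) ∧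
    ∀ P : ValuationSubring Qb, P.LiesOverPrime q → ∀ φ : GQ, P.IsFrobeniusAt φ q →
      ∃ α β : k, α ≠ β ∧ LinearMap.charpoly (ρbar.ρ φ) = (X - C α) * (X - C β) with hTWP
  set K : ℕ → Submodule (ZMod p) (smH1 (levelsS S') act) := fun q =>
    if hq : q.Prime then s56twLocH act (levelsS S') ⟨q, hq⟩ else ⊤ with hK
  have hyp : ∀ x : smH1 (levelsS S') act, x ≠ 0 → ∀ B : Finset ℕ,
      ∃ q : ℕ, q ∉ B ∧ TWP q ∧ x ∉ K q := by
    intro x hx B
    obtain ⟨y, rfl⟩ := Submodule.mkQ_surjective _ x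
    have hyB : (y : GQ → N) ∉ smB1 act := fun h => hx ((smH1π_eq_zero_iff _ _ y).2 h)
    obtain ⟨σ, hσζ, α, β, hαβ, hσ, hyσ⟩ := hgt y y.2 hyB
    have hy1 : dd1 act (y : GQ → N) = 0 := ((mem_smZ1 _ _ _).1 y.2).1
    have hy2 : IsLC₁ levelsAll (y : GQ → N) := by
      obtain ⟨U, ⟨F, hF, hU⟩, h⟩ := ((mem_smZ1 _ _ _).1 y.2).2
      exact ⟨U, ⟨F, hF.1, hU⟩, h⟩
    obtain ⟨q, hqB, hqS, hdvd, hfrob, hloc⟩ :=
      s56tw_step p ρbar act hact y hy1 hy2 S hpS n σ hσζ α β hαβ hσ hyσ B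
    refine ⟨(q : ℕ), hqB, ⟨⟨q.2, hqS, hdvd⟩, hfrob⟩, ?_⟩
    rw [hK]
    simp only [dif_pos q.2]
    rw [s56tw_mk_mem_locH_iff]
    exact hloc
  obtain ⟨qv, hinj, -, hTW, hkill⟩ := fd_exists_killing_family TWP K hyp ∅
  refine ⟨fun i => ⟨qv i, (hTW i).1.1⟩, ?_, fun i => hTW i, ?_⟩
  · intro i j h
    exact hinj (congrArg (fun t : Nat.Primes => (t : ℕ)) h)
  · intro y hy hloc
    have h0 : smH1π (levelsS S') act ⟨y, hy⟩ = 0 := by
      apply hkill
      intro i
      rw [hK]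
      simp only [dif_pos (hTW i).1.1]
      rw [s56tw_mk_mem_locH_iff]
      exact hloc i
    exact (smH1π_eq_zero_iff _ _ _).1 h0

end Fermat.Agent.S56
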