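import Mathlib

/-!
# S56 / T5 (Taylor-Wiles primes), file 1: two-dimensional linear algebra

* `s56tw_charpoly_pow` : if `g` on a `2`-dimensional space has `charpoly g = (X - α)(X - β)` and
  `α ^ a ≠ β ^ a` then `charpoly (g ^ a) = (X - α ^ a)(X - β ^ a)`.
* `s56tw_pow_ne_of_coprime` : `α ≠ β`, `α ^ N = β ^ N = 1` (nonzero), `a` prime to `N` ⟹
  `α ^ a ≠ β ^ a`.
* `s56tw_charpoly_conj` : `charpoly (u * g * u') = charpoly g` for `u * u' = 1 = u' * u`.
-/

set_option autoImplicit false
set_option linter.unusedSectionVars false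

namespace Fermat.Agent.S56

open Polynomial

section Lin

variable {k : Type*} [Field k] {V : Type*} [AddCommGroup V] [Module k V] [Module.Finite k V]

/-- eigenvalues of a power -/
theorem s56tw_hasEigenvalue_pow (g : Module.End k V) (α : k) (h : g.HasEigenvalue α) (a : ℕ) :
    (g ^ a).HasEigenvalue (α ^ a) := by
  obtain ⟨v, hv⟩ := h.exists_hasEigenvector
  have h1 : ∀ n : ℕ, (g ^ n) v = α ^ n • v := by
    intro n
    induction n with
    | zero => simp
    | succ n ih =>
      rw [pow_succ, Module.End.mul_apply, hv.apply_eq_smul, map_smul, ih, smul_smul, pow_succ,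
        mul_comm]
  exact Module.End.hasEigenvalue_of_hasEigenvector
    ⟨Module.End.mem_eigenspace_iff.mpr (h1 a), hv.2⟩

/-- the characteristic polynomial of a power of an endomorphism of a plane with two distinct
eigenvalues whose powers stay distinct -/
theorem s56tw_charpoly_pow (hV : Module.finrank k V = 2) (g : Module.End k V) (α β : k)
    (hg : LinearMap.charpoly g = (X - C α) * (X - C β)) (a : ℕ) (hab : α ^ a ≠ β ^ a) :
    LinearMap.charpoly (g ^ a) = (X - C (α ^ a)) * (X - C (β ^ a)) := by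
  have hα : g.HasEigenvalue α := by
    rw [Module.End.hasEigenvalue_iff_isRoot_charpoly, hg]
    simp
  have hβ : g.HasEigenvalue β := by
    rw [Module.End.hasEigenvalue_iff_isRoot_charpoly, hg]
    simp
  have hα' := (Module.End.hasEigenvalue_iff_isRoot_charpoly _ _).1
    (s56tw_hasEigenvalue_pow g α hα a)
  have hβ' := (Module.End.hasEigenvalue_iff_isRoot_charpoly _ _).1
    (s56tw_hasEigenvalue_pow g β hβ a)
  have hcop : IsCoprime (X - C (α ^ a)) (X - C (β ^ a) : k[X]) :=
    isCoprime_X_sub_C_of_isUnit_sub (sub_ne_zero.mpr hab).isUnit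
  have hdvd : (X - C (α ^ a)) * (X - C (β ^ a)) ∣ LinearMap.charpoly (g ^ a) :=
    hcop.mul_dvd (dvd_iff_isRoot.mpr hα') (dvd_iff_isRoot.mpr hβ')
  have hmon : ((X - C (α ^ a)) * (X - C (β ^ a)) : k[X]).Monic :=
    (monic_X_sub_C _).mul (monic_X_sub_C _)
  refine eq_of_monic_of_dvd_of_natDegree_le hmon (LinearMap.charpoly_monic _) hdvd ?_
  rw [LinearMap.charpoly_natDegree, hV, natDegree_mul (X_sub_C_ne_zero _) (X_sub_C_ne_zero _),
    natDegree_X_sub_C, natDegree_X_sub_C]

/-- eigenvalues of an endomorphism of finite order are roots of unity -/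
theorem s56tw_pow_eq_one_of_hasEigenvalue (g : Module.End k V) (α : k) (h : g.HasEigenvalue α)
    (N : ℕ) (hN : g ^ N = 1) : α ^ N = 1 := by
  obtain ⟨v, hv⟩ := (s56tw_hasEigenvalue_pow g α h N).exists_hasEigenvector
  have h1 := hv.apply_eq_smul
  rw [hN, Module.End.one_apply] at h1
  by_contra hne
  have h2 : (α ^ N - 1) • v = 0 := by rw [sub_smul, one_smul, ← h1, sub_self]
  rcases smul_eq_zero.mp h2 with h3 | h3
  · exact hne (sub_eq_zero.mp h3)
  · exact hv.2 h3

theorem s56tw_pow_eq_one_of_charpoly (g : Module.End k V) (α β : k)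
    (hg : LinearMap.charpoly g = (X - C α) * (X - C β)) (N : ℕ) (hN : g ^ N = 1) :
    α ^ N = 1 ∧ β ^ N = 1 := by
  have hα : g.HasEigenvalue α := by
    rw [Module.End.hasEigenvalue_iff_isRoot_charpoly, hg]
    simp
  have hβ : g.HasEigenvalue β := by
    rw [Module.End.hasEigenvalue_iff_isRoot_charpoly, hg]
    simp
  exact ⟨s56tw_pow_eq_one_of_hasEigenvalue g α hα N hN,
    s56tw_pow_eq_one_of_hasEigenvalue g β hβ N hN⟩

/-- powers of distinct `N`-th roots of unity by an exponent prime to `N` stay distinct -/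
theorem s56tw_pow_ne_of_coprime {α β : k} (hαβ : α ≠ β) {N a : ℕ} (hα : α ^ N = 1)
    (hβ : β ^ N = 1) (ha : a.Coprime N) : α ^ a ≠ β ^ a := by
  intro h
  apply hαβ
  rcases Nat.eq_zero_or_pos N with hN | hN
  · subst hN
    have ha1 : a = 1 := by simpa using ha
    subst ha1
    simpa using h
  have h1 : a.gcd N = 1 := ha
  have h2 := Nat.gcd_eq_gcd_ab a N
  rw [h1] at h2
  have hne : ∀ γ : k, γ ^ N = 1 → γ ≠ 0 := by
    rintro γ hγ rfl
    rw [zero_pow hN.ne'] at hγ
    exact zero_ne_one hγ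
  have key : ∀ γ : k, γ ^ N = 1 → γ = (γ ^ a) ^ (a.gcdA N) := by
    intro γ hγ
    have hγ0 := hne γ hγ
    have h3 : γ ^ ((1 : ℕ) : ℤ) = γ ^ ((a : ℤ) * a.gcdA N + (N : ℤ) * a.gcdB N) := by rw [h2]
    rw [zpow_natCast, pow_one, zpow_add₀ hγ0, zpow_mul, zpow_mul, zpow_natCast, zpow_natCast, hγ,
      one_zpow, mul_one] at h3
    exact h3
  rw [key α hα, key β hβ, h]

/-- conjugation invariance of the characteristic polynomial -/
theorem s56tw_charpoly_conj (u u' g : Module.End k V) (h1 : u * u' = 1) (h2 : u' * u = 1) :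
    LinearMap.charpoly (u * g * u') = LinearMap.charpoly g := by
  let e : V ≃ₗ[k] V := LinearEquiv.ofLinearMap u u' h1 h2
  have : u * g * u' = e.conj g := by
    ext v
    rfl
  rw [this, LinearEquiv.charpoly_conj]

end Lin

end Fermat.Agent.S56
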