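import Fermat.Agent.S55.LG.QbarMackey
import Fermat.Agent.S55.LG.QbarInertia
import Fermat.Agent.S55.Bridge.Pair

/-!
# S56 / T5 (Taylor-Wiles primes), file 3: Frobenius elements, roots of unity, decomposition groups

* `s56tw_frob_congr`     : a Frobenius element `φ` at `A` satisfies `φ x - x ^ q ∈ 𝔪_A` on `A`.
* `s56tw_dvd_sub_one`    : if a Frobenius element at `A ∣ q ≠ p` fixes a primitive `p ^ m`-th root of
                           unity, then `p ^ m ∣ q - 1`.
* `s56tw_decomp_le`      : the decomposition group of `padicPlace q` is contained in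
                           `E.fixingSubgroup · r_q(Gal(ℚ̄_q/ℚ_q))` for every number field `E ⊆ ℚ̄`.
-/

set_option autoImplicit false
set_option linter.unusedSectionVars false
set_option linter.unusedVariables false

noncomputable section

namespace Fermat.Agent.S56

open Fermat.Agent.S55 NumberField IsDedekindDomain
open scoped Pointwise

local notation "Qb" => AlgebraicClosure ℚ

section Frob

/-- the Frobenius congruence on the valuation ring -/
theorem s56tw_frob_congr (A : ValuationSubring Qb) (φ : GQ) (q : ℕ) (hφ : A.IsFrobeniusAt φ q)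
    (x : Qb) (hx : x ∈ A) : φ x - x ^ q ∈ A.nonunits := by
  obtain ⟨hdec, hres⟩ := hφ
  set b : A := ⟨x, hx⟩ with hb
  have h1 := hres (IsLocalRing.residue A b)
  rw [← IsLocalRing.ResidueField.residue_smul, ← map_pow] at h1
  have h2 : (⟨φ, hdec⟩ : A.decompositionSubgroup ℚ) • b - b ^ q ∈ IsLocalRing.maximalIdeal A :=
    Ideal.Quotient.eq.mp h1
  rw [← ValuationSubring.coe_mem_nonunits_iff] at h2
  exact h2

/-- if a Frobenius element at a place over `q ≠ p` fixes a primitive `p ^ m`-th root of unity then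
`q ≡ 1 mod p ^ m` -/
theorem s56tw_dvd_sub_one {p : ℕ} [Fact p.Prime] {q : ℕ} (hq : q.Prime) (hqp : q ≠ p)
    (A : ValuationSubring Qb) (hA : A.LiesOverPrime q) (φ : GQ) (hφ : A.IsFrobeniusAt φ q)
    {m : ℕ} {ζ : Qb} (hζ : IsPrimitiveRoot ζ (p ^ m)) (hfix : φ ζ = ζ) : p ^ m ∣ q - 1 := by
  have hp : p.Prime := Fact.out
  by_contra hnd
  have hpm : p ^ m ≠ 0 := pow_ne_zero _ hp.ne_zero
  have hvζ : A.valuation ζ = 1 := brpair_valuation_eq_one A hpm hζ.pow_eq_one
  have hζA : ζ ∈ A := (A.valuation_le_one_iff ζ).1 hvζ.le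
  have h1 := s56tw_frob_congr A φ q hφ ζ hζA
  rw [hfix] at h1
  obtain ⟨η, hη⟩ : ∃ η : Qb, η = ζ ^ (q - 1) := ⟨_, rfl⟩
  have hη1 : η ≠ 1 := fun h => hnd ((hζ.pow_eq_one_iff_dvd _).1 (hη ▸ h))
  have hηpow : η ^ (p ^ m) = 1 := by
    rw [hη, ← pow_mul, mul_comm, pow_mul, hζ.pow_eq_one, one_pow]
  have hfac : ζ - ζ ^ q = ζ * (1 - η) := by
    have : ζ ^ q = ζ * ζ ^ (q - 1) := by
      rw [← pow_succ', Nat.sub_add_cancel hq.one_lt.le]
    rw [this, hη]
    ring
  rw [hfac, ValuationSubring.mem_nonunits_iff, map_mul, hvζ, one_mul] at h1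
  -- the order of `η` is `p ^ j`, `j ≥ 1`
  have hord : orderOf η ∣ p ^ m := orderOf_dvd_of_pow_eq_one hηpow
  obtain ⟨j, -, hj⟩ := (Nat.dvd_prime_pow hp).1 hord
  have hj0 : j ≠ 0 := by
    rintro rfl
    rw [pow_zero, orderOf_eq_one_iff] at hj
    exact hη1 hj
  obtain ⟨i, rfl⟩ := Nat.exists_eq_succ_of_ne_zero hj0
  have hprim : IsPrimitiveRoot (η ^ (p ^ i)) p := by
    refine IsPrimitiveRoot.pow (n := orderOf η) ?_ (IsPrimitiveRoot.orderOf η) ?_
    · rw [hj]
      exact pow_pos hp.pos _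
    · rw [hj, pow_succ]
  have hv1 := brpair_valuation_one_sub hq hqp A hA hprim
  have hvη : A.valuation η = 1 := brpair_valuation_eq_one A hpm hηpow
  have hηA : η ∈ A := (A.valuation_le_one_iff η).1 hvη.le
  have hsum : ∑ t ∈ Finset.range (p ^ i), η ^ t ∈ A :=
    sum_mem fun t _ => pow_mem hηA t
  have hgeom : 1 - η ^ (p ^ i) = (1 - η) * ∑ t ∈ Finset.range (p ^ i), η ^ t := by
    have := mul_geom_sum η (p ^ i)
    linear_combination this
  rw [hgeom, map_mul] at hv1
  have hle : A.valuation (∑ t ∈ Finset.range (p ^ i), η ^ t) ≤ 1 :=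
    (A.valuation_le_one_iff _).2 hsum
  have : A.valuation (1 - η) * A.valuation (∑ t ∈ Finset.range (p ^ i), η ^ t) < 1 :=
    calc _ ≤ A.valuation (1 - η) * 1 := by gcongr
      _ < 1 := by simpa using h1
  rw [hv1] at this
  exact lt_irrefl _ this

end Frob

section Decomp

variable (q : ℕ) [Fact q.Prime]

/-- the decomposition group of `padicPlace q` is contained in `U · r_q(Gal(ℚ̄_q/ℚ_q))` for the
fixing subgroup `U` of any number field -/
theorem s56tw_decomp_le (E : IntermediateField ℚ Qb) [NumberField ↥E] (g : GQ)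
    (hg : g ∈ (padicPlace q).decompositionSubgroup ℚ) :
    ∃ h ∈ E.fixingSubgroup, ∃ γ : lbGal q, g = h * localGaloisToGlobal q γ := by
  have hpl : lgPlace q (lgqmEmb q E 1) = lgPlace q (lgqmEmb q E g) := by
    apply HeightOneSpectrum.ext
    ext x
    rw [lgPlace_asIdeal, lgPlace_asIdeal, mem_lgIdeal_iff, mem_lgIdeal_iff, lgqmEmb_apply,
      lgqmEmb_apply, ← lgqi_mem_nonunits_padicPlace_iff, ← lgqi_mem_nonunits_padicPlace_iff,
      inv_one, AlgEquiv.one_apply]
    have hg' : g⁻¹ • padicPlace q = padicPlace q := by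
      have h1 : g • padicPlace q = padicPlace q := hg
      conv_lhs => rw [← h1]
      rw [inv_smul_smul]
    have h2 := Fermat.Agent.S13.mink_smul_mem_smul_nonunits_iff (F := ℚ) (padicPlace q) g⁻¹
      ((x : ↥E) : Qb)
    rw [hg'] at h2
    exact h2.symm
  obtain ⟨h, hh, γ, hγ⟩ := (lgqm_lgPlace_eq_iff q E 1 g).1 hpl
  exact ⟨h, hh, γ, by rw [hγ, mul_one]⟩

end Decomp

end Fermat.Agent.S56
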