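import Fermat.Agent.S56.Tw.Lin
import Fermat.Agent.S56.Tw.Coc
import Fermat.Agent.S56.Tw.Local
import Fermat.Agent.S56.Frob.Hom
import Fermat.Prelude.Def_GaloisRep_Residual
import Fermat.Prelude.Def_ExtEndgame_ProductionDatum

/-!
# S56 / T5 (Taylor-Wiles primes), file 4: ONE Taylor-Wiles prime (Chebotarev step)

`s56tw_step` : `ρ̄` a residual representation, `act` a representation of `G_ℚ` on `N` which is
trivial on `ker ρ̄ ∩ ker χ_p`, `y` a smooth `1`-cocycle, `σ ∈ G_ℚ` fixing `μ_{p^(n+1)}` with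
`charpoly ρ̄(σ) = (X - α)(X - β)`, `α ≠ β`, such that `y σ` is not of the form `σ m - m`.  Then for
every finite set `B` there is a prime `q ∉ B ∪ S` with `q ≡ 1 mod p^(n+1)`, such that every
Frobenius element at `q` has distinct eigenvalues in `k` under `ρ̄`, and such that the restriction
of `y` to the local Galois group at `q` is NOT a coboundary.
-/

set_option autoImplicit false
set_option linter.unusedSectionVars false
set_option linter.unusedVariables false
set_option linter.style.haveILetI false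

noncomputable section

namespace Fermat.Agent.S56

open Fermat.Agent.S55 ExtCitation Polynomial
open scoped Pointwise

local notation "Qb" => AlgebraicClosure ℚ

local instance s56tw_isAlgebraic : Algebra.IsAlgebraic ℚ (AlgebraicClosure ℚ) :=
  AlgebraicClosure.isAlgebraic ℚ
local instance s56tw_isAlgClosure : IsAlgClosure ℚ (AlgebraicClosure ℚ) :=
  ⟨inferInstance, inferInstance⟩
local instance s56tw_normal : Normal ℚ (AlgebraicClosure ℚ) :=
  IsAlgClosure.normal ℚ (AlgebraicClosure ℚ)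

/-- a primitive `m`-th root of unity in `ℚ̄` -/
theorem s56tw_exists_primitiveRoot (m : ℕ) (hm : m ≠ 0) : ∃ ζ : Qb, IsPrimitiveRoot ζ m := by
  have : NeZero m := ⟨hm⟩
  have : NeZero (m : Qb) := ⟨Nat.cast_ne_zero.mpr hm⟩
  exact HasEnoughRootsOfUnity.exists_primitiveRoot Qb m

theorem s56tw_pow_fix (σ : GQ) (ζ : Qb) (h : σ ζ = ζ) (t : ℕ) : (σ ^ t) ζ = ζ := by
  induction t with
  | zero => rw [pow_zero, AlgEquiv.one_apply]
  | succ t ih => rw [pow_succ, AlgEquiv.mul_apply, h, ih]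

theorem s56tw_step {k : Type} [Field k] (p : ℕ) [Fact p.Prime] (ρbar : ResidualGaloisRep k)
    {R : Type*} [CommRing R] {N : Type*} [AddCommGroup N] [Module R N]
    (act : Representation R GQ N)
    (hact : ∀ g : GQ, ρbar.ρ g = 1 → cycloChar p g = 1 → act g = 1)
    (y : GQ → N) (hy : dd1 act y = 0) (hysm : IsLC₁ levelsAll y)
    (S : Finset ℕ) (hpS : p ∈ S) (n : ℕ)
    (σ : GQ) (hσζ : ∀ ζ : Qb, ζ ^ (p ^ (n + 1)) = 1 → σ ζ = ζ)
    (α β : k) (hαβ : α ≠ β) (hσ : LinearMap.charpoly (ρbar.ρ σ) = (X - C α) * (X - C β))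
    (hyσ : ¬ S56twC act y σ) (B : Finset ℕ) :
    ∃ q : Nat.Primes, (q : ℕ) ∉ B ∧ (q : ℕ) ∉ S ∧ p ^ (n + 1) ∣ (q : ℕ) - 1 ∧
      (∀ P : ValuationSubring Qb, P.LiesOverPrime (q : ℕ) → ∀ φ : GQ, P.IsFrobeniusAt φ (q : ℕ) →
        ∃ α' β' : k, α' ≠ β' ∧ LinearMap.charpoly (ρbar.ρ φ) = (X - C α') * (X - C β')) ∧
      ¬ ∃ m : N, ∀ γ : primeLocalGaloisGroup q,
        y (primeLocalToGlobal q γ) = act (primeLocalToGlobal q γ) m - m := by
  classical
  have hp : p.Prime := Fact.out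
  -- the level of `y`, the level of `ρ̄`, the cyclotomic field
  obtain ⟨_, ⟨F, hFfd, rfl⟩, hFy⟩ := hysm
  obtain ⟨L, hLfd, hLρ⟩ := ρbar.factorsThroughFiniteLevel
  obtain ⟨ζ, hζ⟩ := s56tw_exists_primitiveRoot (p ^ (n + 1)) (pow_ne_zero _ hp.ne_zero)
  have hζint : IsIntegral ℚ ζ := Algebra.IsIntegral.isIntegral ζ
  haveI hZfd : FiniteDimensional ℚ (IntermediateField.adjoin ℚ {ζ}) :=
    IntermediateField.adjoin.finiteDimensional hζint
  haveI := hFfd
  haveI := hLfd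
  set E0 : IntermediateField ℚ Qb := F ⊔ L ⊔ IntermediateField.adjoin ℚ {ζ} with hE0
  haveI hFL : FiniteDimensional ℚ ↥(F ⊔ L) := IntermediateField.finiteDimensional_sup F L
  haveI hE0fd : FiniteDimensional ℚ ↥E0 :=
    IntermediateField.finiteDimensional_sup (F ⊔ L) (IntermediateField.adjoin ℚ {ζ})
  set E : IntermediateField ℚ Qb := brlevNC E0 with hE
  haveI hEfd : FiniteDimensional ℚ ↥E := brlev_NC_finiteDimensional E0
  haveI hEnf : NumberField ↥E := { to_charZero := inferInstance, to_finiteDimensional := hEfd }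
  set U : Subgroup GQ := E.fixingSubgroup with hU
  haveI hUn : U.Normal := brlev_NC_fixingSubgroup_normal E0
  have hE0E : E0 ≤ E := brlev_le_NC E0
  have hUF : U ≤ F.fixingSubgroup :=
    IntermediateField.fixingSubgroup_antitone ((le_sup_left.trans le_sup_left).trans hE0E)
  have hUL : U ≤ L.fixingSubgroup :=
    IntermediateField.fixingSubgroup_antitone ((le_sup_right.trans le_sup_left).trans hE0E)
  have hUZ : U ≤ (IntermediateField.adjoin ℚ {ζ}).fixingSubgroup :=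
    IntermediateField.fixingSubgroup_antitone (le_sup_right.trans hE0E)
  have hUζ : ∀ u ∈ U, u ζ = ζ := fun u hu =>
    (IntermediateField.mem_fixingSubgroup_iff _ _).1 (hUZ hu) ζ
      (IntermediateField.mem_adjoin_simple_self ℚ ζ)
  have hUρ : ∀ u ∈ U, ρbar.ρ u = 1 := fun u hu =>
    hLρ u ((IntermediateField.mem_fixingSubgroup_iff _ _).1 (hUL hu))
  have hζ1 : IsPrimitiveRoot (ζ ^ (p ^ n)) p :=
    IsPrimitiveRoot.pow (pow_pos hp.pos _) hζ (pow_succ p n)
  have hUχ : ∀ u ∈ U, cycloChar p u = 1 := by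
    intro u hu
    have hfix : u (ζ ^ (p ^ n)) = ζ ^ (p ^ n) := by rw [map_pow, hUζ u hu]
    have h1 := Fermat.Agent.S14.plumb_cycloExp_eq_one_of_fix p u hζ1 hfix
    apply Units.ext
    rw [coe_cycloChar, h1, Units.val_one]
  have hUact : ∀ u ∈ U, act u = 1 := fun u hu => hact u (hUρ u hu) (hUχ u hu)
  have hUy : ∀ g : GQ, ∀ u ∈ U, y (g * u) = y g := fun g u hu => hFy g u (hUF hu)
  have hCU : ∀ g : GQ, ∀ u ∈ U, S56twC act y g → S56twC act y (g * u) := fun g u hu h =>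
    s56twC_mul_right g u (hUy g u hu) (hUact u hu) h
  -- the quotient map
  set f : GQ →* GQ ⧸ U := QuotientGroup.mk' U with hf
  have hfker : IsOpen (f.ker : Set GQ) := by
    rw [hf, QuotientGroup.ker_mk']
    exact E.fixingSubgroup_isOpen
  have hfeq : ∀ g g' : GQ, f g = f g' → ∃ u ∈ U, g = g' * u := fun g g' h =>
    ⟨g'⁻¹ * g, QuotientGroup.eq.1 h.symm, by group⟩
  obtain ⟨q, hq, hqBS, a, ha, ⟨A, hA, φ, hφ, hfφ⟩, hall⟩ :=
    fd_exists_isFrobeniusAt_hom f hfker σ (B ∪ S)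
  have hqB : q ∉ B := fun h => hqBS (Finset.mem_union_left _ h)
  have hqS : q ∉ S := fun h => hqBS (Finset.mem_union_right _ h)
  have hqp : q ≠ p := fun h => hqS (h ▸ hpS)
  haveI hqf : Fact q.Prime := ⟨hq⟩
  -- `φ = σ ^ a * u`
  obtain ⟨u, hu, hφu⟩ := hfeq φ (σ ^ a) (by rw [hfφ, map_pow])
  have hσζ' : σ ζ = ζ := hσζ ζ hζ.pow_eq_one
  refine ⟨⟨q, hq⟩, hqB, hqS, ?_, ?_, ?_⟩
  · -- `q ≡ 1 mod p ^ (n + 1)`
    have hφζ : φ ζ = ζ := by
      rw [hφu, AlgEquiv.mul_apply, hUζ u hu, s56tw_pow_fix σ ζ hσζ']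
    exact s56tw_dvd_sub_one hq hqp A hA φ hφ hζ hφζ
  · -- distinct eigenvalues of all Frobenius elements
    intro P hP φ' hφ'
    obtain ⟨τ, hτ⟩ := hall P hP φ' hφ'
    obtain ⟨u', hu', hφ'u⟩ := hfeq φ' (τ * σ ^ a * τ⁻¹) (by
      rw [hτ, map_mul, map_mul, map_pow, map_inv])
    set N₀ := orderOf (f σ) with hN₀
    have hσN : (ρbar.ρ σ) ^ N₀ = 1 := by
      have h1 : f (σ ^ N₀) = 1 := by rw [map_pow, hN₀, pow_orderOf_eq_one]
      have h2 : σ ^ N₀ ∈ U := by
        rw [hf, QuotientGroup.mk'_apply, QuotientGroup.eq_one_iff] at h1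
        exact h1
      rw [← map_pow]
      exact hUρ _ h2
    haveI : Module.Finite k ρbar.V := inferInstance
    obtain ⟨hαN, hβN⟩ := s56tw_pow_eq_one_of_charpoly (ρbar.ρ σ) α β hσ N₀ hσN
    have hne : α ^ a ≠ β ^ a := s56tw_pow_ne_of_coprime hαβ hαN hβN ha
    refine ⟨α ^ a, β ^ a, hne, ?_⟩
    rw [hφ'u, map_mul, hUρ u' hu', mul_one, map_mul, map_mul, map_pow,
      s56tw_charpoly_conj (ρbar.ρ τ) (ρbar.ρ τ⁻¹) _ (by rw [← map_mul, mul_inv_cancel, map_one])
        (by rw [← map_mul, inv_mul_cancel, map_one])]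
    exact s56tw_charpoly_pow ρbar.finrank_eq (ρbar.ρ σ) α β hσ a hne
  · -- the restriction of `y` to the local Galois group at `q` is not a coboundary
    rintro ⟨m, hm⟩
    apply hyσ
    obtain ⟨τ₀, hτ₀⟩ := exists_smul_padicPlace_eq q A hA
    have hφA : φ • A = A := hφ.mem_decompositionSubgroup
    have hg : τ₀⁻¹ * φ * τ₀ ∈ (padicPlace q).decompositionSubgroup ℚ := by
      show (τ₀⁻¹ * φ * τ₀) • padicPlace q = padicPlace q
      rw [mul_smul, mul_smul, hτ₀, hφA, ← hτ₀, inv_smul_smul]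
    obtain ⟨h, hh, γ, hγ⟩ := s56tw_decomp_le q E _ hg
    have hCγ : S56twC act y (localGaloisToGlobal q γ) := ⟨m, hm γ⟩
    have hCg : S56twC act y (τ₀⁻¹ * φ * τ₀) := by
      have e : τ₀⁻¹ * φ * τ₀ = localGaloisToGlobal q γ *
          ((localGaloisToGlobal q γ)⁻¹ * h * localGaloisToGlobal q γ) := by
        rw [hγ]
        group
      rw [e]
      exact hCU _ _ (hUn.conj_mem' h hh _) hCγ
    have hCφ : S56twC act y φ := by
      have e : φ = τ₀ * (τ₀⁻¹ * φ * τ₀) * τ₀⁻¹ := by group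
      rw [e]
      exact s56twC_conj hy τ₀ _ hCg
    have hCσa : S56twC act y (σ ^ a) := by
      have e : σ ^ a = φ * u⁻¹ := by rw [hφu, mul_inv_cancel_right]
      rw [e]
      exact hCU _ _ (U.inv_mem hu) hCφ
    obtain ⟨b, hb⟩ := exists_pow_eq_self_of_coprime ha
    obtain ⟨u'', hu'', hσu⟩ := hfeq σ ((σ ^ a) ^ b) (by rw [map_pow, map_pow, hb])
    rw [hσu]
    exact hCU _ _ hu'' (s56twC_pow hy _ hCσa b)

end Fermat.Agent.S56
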